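import Mathlib
import Fermat.Prelude.Def_FormalHecke_Eigensystem

set_option autoImplicit false

namespace Fermat.Agent.S49x

open FormalHecke

variable {R : Type*} [CommRing R]

/-- Prime-power recursion from the eigensystem identity. -/
theorem eig_prime_pow_rec {e a : ℕ → R} (h : IsEigensystem e a) {ℓ : ℕ} (hℓ : ℓ.Prime) (r : ℕ) :
    a (ℓ ^ (r + 2)) = a ℓ * a (ℓ ^ (r + 1)) - e ℓ * a (ℓ ^ r) := by
  have h2 := h.2 ℓ hℓ (ℓ ^ (r + 1))
  have hdvd : ℓ ∣ ℓ ^ (r + 1) := dvd_pow_self ℓ (Nat.succ_ne_zero r)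
  rw [if_pos hdvd] at h2
  have hdiv : ℓ ^ (r + 1) / ℓ = ℓ ^ r := by
    rw [pow_succ, Nat.mul_div_cancel _ hℓ.pos]
  rw [hdiv] at h2
  have hpow : ℓ * ℓ ^ (r + 1) = ℓ ^ (r + 2) := by ring
  rw [hpow] at h2
  rw [← h2]; ring

/-- Multiplicativity of a prime power against a number prime to it. -/
theorem eig_prime_pow_mul {e a : ℕ → R} (h : IsEigensystem e a) {ℓ : ℕ} (hℓ : ℓ.Prime)
    {n : ℕ} (hn : ¬ ℓ ∣ n) : ∀ r : ℕ, a (ℓ ^ r * n) = a (ℓ ^ r) * a n := by
  have key : ∀ r : ℕ, a (ℓ ^ r * n) = a (ℓ ^ r) * a n ∧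
      a (ℓ ^ (r + 1) * n) = a (ℓ ^ (r + 1)) * a n := by
    intro r
    induction r with
    | zero =>
      refine ⟨by simp [h.1], ?_⟩
      have h2 := h.2 ℓ hℓ n
      rw [if_neg hn, mul_zero, add_zero] at h2
      simpa using h2
    | succ r ih =>
      refine ⟨ih.2, ?_⟩
      have h2 := h.2 ℓ hℓ (ℓ ^ (r + 1) * n)
      have hdvd : ℓ ∣ ℓ ^ (r + 1) * n := Dvd.dvd.mul_right (dvd_pow_self ℓ (Nat.succ_ne_zero r)) n
      rw [if_pos hdvd] at h2
      have hdiv : ℓ ^ (r + 1) * n / ℓ = ℓ ^ r * n := by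
        rw [pow_succ, mul_assoc, mul_comm ℓ n, ← mul_assoc, Nat.mul_div_cancel _ hℓ.pos]
      rw [hdiv] at h2
      have hpow : ℓ * (ℓ ^ (r + 1) * n) = ℓ ^ (r + 1 + 1) * n := by ring
      rw [hpow, ih.1, ih.2] at h2
      have hrec := eig_prime_pow_rec h hℓ r
      rw [show r + 1 + 1 = r + 2 from rfl, hrec]
      have : a (ℓ ^ (r + 2) * n) = a ℓ * (a (ℓ ^ (r + 1)) * a n) - e ℓ * (a (ℓ ^ r) * a n) := by
        rw [← h2]; ring
      rw [this]; ring
  intro r
  exact (key r).1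

/-- Coprime multiplicativity from the eigensystem identity. -/
theorem eig_mul_of_coprime {e a : ℕ → R} (h : IsEigensystem e a) :
    ∀ m n : ℕ, m.Coprime n → a (m * n) = a m * a n := by
  intro m
  induction m using Nat.recOnPosPrimePosCoprime with
  | prime_pow p k hp hk =>
    intro n hcop
    have hn : ¬ p ∣ n := by
      intro hdvd
      have : p ∣ Nat.gcd (p ^ k) n := Nat.dvd_gcd (dvd_pow_self p hk.ne') hdvd
      rw [hcop] at this
      exact hp.one_lt.ne' (Nat.dvd_one.mp this)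
    exact eig_prime_pow_mul h hp hn k
  | zero =>
    intro n hcop
    have : n = 1 := by simpa using hcop
    subst this
    simp [h.1]
  | one =>
    intro n _
    simp [h.1]
  | coprime x y hx hy hxy ihx ihy =>
    intro n hcop
    have hxn : x.Coprime n := Nat.Coprime.coprime_mul_right hcop
    have hyn : y.Coprime n := Nat.Coprime.coprime_mul_left hcop
    have hx_yn : x.Coprime (y * n) := Nat.Coprime.mul_right hxy hxn
    rw [mul_assoc, ihx _ hx_yn, ihy _ hyn, ihx _ hxy]; ring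

/-- A formal Hecke eigensystem is recursive (multiplicative + prime power recursion). -/
theorem isRecursive_of_isEigensystem {e a : ℕ → R} (h : IsEigensystem e a) : IsRecursive e a :=
  ⟨h.1, eig_mul_of_coprime h, fun _ r hℓ => eig_prime_pow_rec h hℓ r⟩

end Fermat.Agent.S49x
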