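import Mathlib
import Fermat.Prelude.Def_FLTPrelim_Modularity
import Fermat.Prelude.Def_ModularForm_HeckeOperatorForms
import Fermat.Prelude.Thm_ModularFormClass_qCoeff_heckeT
import Fermat.Prelude.Thm_ModularFormClass_qCoeff_heckeU
import Fermat.Prelude.Thm_CongruenceSubgroup_one_mem_strictPeriods_Gamma0
import Fermat.Agent.S49x.FormalRecursive

set_option autoImplicit false

namespace Fermat.Agent.S49x

open CongruenceSubgroup ModularFormClass UpperHalfPlane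

variable {N : ℕ}

/-- `q`-coefficients of `T_ℓ f` for a weight-2 cusp form on `Γ₀(N)`. -/
theorem qCoeff_heckeTLin_two (f : CuspForm (Gamma0 N) 2) {ℓ : ℕ} (hℓ : ℓ.Prime) (hℓN : ¬ ℓ ∣ N)
    (n : ℕ) :
    qCoeff (CuspForm.heckeTLin 2 hℓ hℓN f) n =
      qCoeff f (n * ℓ) + if ℓ ∣ n then (ℓ : ℂ) * qCoeff f (n / ℓ) else 0 := by
  rw [CuspForm.coe_heckeTLin_apply,
    ModularFormClass.qCoeff_heckeT f (CongruenceSubgroup.one_mem_strictPeriods_Gamma0 N)
      hℓ.ne_zero n, ModularForm.coeffHeckeT_apply]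
  norm_num

/-- `q`-coefficients of `U_q f` for a weight-2 cusp form on `Γ₀(N)`. -/
theorem qCoeff_heckeULin_two [NeZero N] (f : CuspForm (Gamma0 N) 2) {q : ℕ} (hq : q.Prime)
    (hqN : q ∣ N) (n : ℕ) :
    qCoeff (CuspForm.heckeULin 2 hqN f) n = qCoeff f (n * q) := by
  rw [CuspForm.coe_heckeULin_apply,
    ModularFormClass.qCoeff_heckeU f (CongruenceSubgroup.one_mem_strictPeriods_Gamma0 N)
      hq.ne_zero n, ModularForm.coeffHeckeU_apply]

/-- `q`-coefficients of a scalar multiple. -/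
theorem qCoeff_smul_cuspForm (c : ℂ) (f : CuspForm (Gamma0 N) 2) (n : ℕ) :
    qCoeff (⇑(c • f)) n = c * qCoeff f n := by
  have h := ModularForm.qExpansion_smul (h := 1) one_pos
    (CongruenceSubgroup.one_mem_strictPeriods_Gamma0 N) c f
  rw [qCoeff, FunLike.coe_smul, h, qCoeff]
  simp

/-- The zeroth `q`-coefficient of a cusp form vanishes. -/
theorem qCoeff_zero_cuspForm (f : CuspForm (Gamma0 N) 2) : qCoeff f 0 = 0 :=
  CuspFormClass.qExpansion_coeff_zero f one_pos (CongruenceSubgroup.one_mem_strictPeriods_Gamma0 N)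

/-- A cusp form all of whose `q`-coefficients vanish is zero. -/
theorem cuspForm_eq_zero_of_qCoeff (f : CuspForm (Gamma0 N) 2) (h : ∀ n, qCoeff f n = 0) :
    f = 0 := by
  have hΓ := CongruenceSubgroup.one_mem_strictPeriods_Gamma0 N
  have : Fact (IsCusp OnePoint.infty
      (Subgroup.map (Matrix.SpecialLinearGroup.mapGL ℝ) (Gamma0 N))) :=
    ⟨Subgroup.isCusp_of_mem_strictPeriods one_pos hΓ⟩
  have hq : qExpansion 1 f = 0 := by
    ext n
    simpa [qCoeff] using h n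
  have := (UpperHalfPlane.qExpansion_eq_zero_iff one_pos
    (SlashInvariantFormClass.periodic_comp_ofComplex f hΓ) (ModularFormClass.holo f)
    (ModularFormClass.bdd_at_infty f)).mp hq
  exact DFunLike.coe_injective this


/-- The "Nebentypus weight" in the formal Hecke relation at level `N`, weight 2: `ℓ` for `ℓ ∤ N`,
`0` for `ℓ ∣ N`. -/
noncomputable def eLevel (N : ℕ) (ℓ : ℕ) : ℂ := if ℓ ∣ N then 0 else (ℓ : ℂ)

/-- The Hecke relation on `q`-coefficients of a common eigenvector. -/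
theorem qCoeff_relation_of_eigenvector [NeZero N] (f : CuspForm (Gamma0 N) 2) (lam : ℕ → ℂ)
    (hT : ∀ (ℓ : ℕ) (hℓ : ℓ.Prime) (hℓN : ¬ ℓ ∣ N), CuspForm.heckeTLin 2 hℓ hℓN f = lam ℓ • f)
    (hU : ∀ (q : ℕ) (_ : q.Prime) (hqN : q ∣ N), CuspForm.heckeULin 2 hqN f = lam q • f)
    {ℓ : ℕ} (hℓ : ℓ.Prime) (n : ℕ) :
    qCoeff f (ℓ * n) + eLevel N ℓ * (if ℓ ∣ n then qCoeff f (n / ℓ) else 0) =
      lam ℓ * qCoeff f n := by
  by_cases hℓN : ℓ ∣ N
  · have h := congrArg (fun g : CuspForm (Gamma0 N) 2 => qCoeff (⇑g) n) (hU ℓ hℓ hℓN)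
    simp only [qCoeff_heckeULin_two f hℓ hℓN, qCoeff_smul_cuspForm] at h
    rw [eLevel, if_pos hℓN, zero_mul, add_zero, mul_comm ℓ n]
    exact h
  · have h := congrArg (fun g : CuspForm (Gamma0 N) 2 => qCoeff (⇑g) n) (hT ℓ hℓ hℓN)
    simp only [qCoeff_heckeTLin_two f hℓ hℓN, qCoeff_smul_cuspForm] at h
    rw [eLevel, if_neg hℓN, mul_comm ℓ n, ← h]
    split_ifs <;> ring

/-- If the first coefficient of a common eigenvector vanishes, all coefficients vanish. -/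
theorem qCoeff_eq_zero_of_eigenvector_of_one [NeZero N] (f : CuspForm (Gamma0 N) 2) (lam : ℕ → ℂ)
    (hT : ∀ (ℓ : ℕ) (hℓ : ℓ.Prime) (hℓN : ¬ ℓ ∣ N), CuspForm.heckeTLin 2 hℓ hℓN f = lam ℓ • f)
    (hU : ∀ (q : ℕ) (_ : q.Prime) (hqN : q ∣ N), CuspForm.heckeULin 2 hqN f = lam q • f)
    (h1 : qCoeff f 1 = 0) : ∀ n, qCoeff f n = 0 := by
  intro n
  induction n using Nat.strong_induction_on with
  | _ n ih =>
    rcases Nat.lt_or_ge n 2 with hn | hn
    · interval_cases n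
      · exact qCoeff_zero_cuspForm f
      · exact h1
    · obtain ⟨ℓ, hℓ, hdvd⟩ := Nat.exists_prime_and_dvd (show n ≠ 1 by omega)
      obtain ⟨m, rfl⟩ := hdvd
      have hm0 : m ≠ 0 := by rintro rfl; omega
      have hm : m < ℓ * m := by
        have := hℓ.two_le
        nlinarith [Nat.pos_of_ne_zero hm0]
      have hrel := qCoeff_relation_of_eigenvector f lam hT hU hℓ m
      rw [ih m hm, mul_zero] at hrel
      have hsecond : (if ℓ ∣ m then qCoeff (⇑f) (m / ℓ) else 0) = 0 := by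
        split_ifs with hd
        · apply ih
          have : m / ℓ ≤ m := Nat.div_le_self m ℓ
          omega
        · rfl
      rw [hsecond, mul_zero, add_zero] at hrel
      exact hrel

/-- **Piece (4) of S49**: a nonzero common eigenvector of all `T_ℓ` (`ℓ ∤ N`) and `U_q` (`q ∣ N`)
on `S₂(Γ₀(N))` has nonzero first coefficient, and its normalisation is a normalised eigenform whose
prime-indexed `q`-coefficients are the eigenvalues. -/
theorem isNormalizedEigenform_of_common_eigenvector [NeZero N] (f : CuspForm (Gamma0 N) 2)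
    (hf : f ≠ 0) (lam : ℕ → ℂ)
    (hT : ∀ (ℓ : ℕ) (hℓ : ℓ.Prime) (hℓN : ¬ ℓ ∣ N), CuspForm.heckeTLin 2 hℓ hℓN f = lam ℓ • f)
    (hU : ∀ (q : ℕ) (_ : q.Prime) (hqN : q ∣ N), CuspForm.heckeULin 2 hqN f = lam q • f) :
    qCoeff f 1 ≠ 0 ∧ ((qCoeff f 1)⁻¹ • f).IsNormalizedEigenform ∧
      ∀ ℓ : ℕ, ℓ.Prime → qCoeff (⇑((qCoeff f 1)⁻¹ • f)) ℓ = lam ℓ := by
  have h1 : qCoeff f 1 ≠ 0 := fun h =>
    hf (cuspForm_eq_zero_of_qCoeff f (qCoeff_eq_zero_of_eigenvector_of_one f lam hT hU h))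
  set c : ℂ := (qCoeff f 1)⁻¹ with hc
  set b : ℕ → ℂ := fun n => qCoeff (⇑(c • f)) n with hb
  have hbn : ∀ n, b n = c * qCoeff f n := fun n => qCoeff_smul_cuspForm c f n
  have hb1 : b 1 = 1 := by rw [hbn, hc, inv_mul_cancel₀ h1]
  have hrel : ∀ ℓ : ℕ, ℓ.Prime → ∀ n : ℕ,
      b (ℓ * n) + eLevel N ℓ * (if ℓ ∣ n then b (n / ℓ) else 0) = lam ℓ * b n := by
    intro ℓ hℓ n
    have h := qCoeff_relation_of_eigenvector f lam hT hU hℓ n
    simp only [hbn]
    rw [mul_left_comm (lam ℓ) c, ← h]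
    split_ifs <;> ring
  have hlam : ∀ ℓ : ℕ, ℓ.Prime → b ℓ = lam ℓ := by
    intro ℓ hℓ
    have h := hrel ℓ hℓ 1
    rw [mul_one, if_neg (by simpa using hℓ.one_lt.ne'), mul_zero, add_zero, hb1, mul_one] at h
    exact h
  have heig : FormalHecke.IsEigensystem (eLevel N) b := by
    refine ⟨hb1, fun ℓ hℓ n => ?_⟩
    rw [hrel ℓ hℓ n, hlam ℓ hℓ]
  have hrec := isRecursive_of_isEigensystem heig
  refine ⟨h1, ⟨hb1, hrec.2.1, ?_, ?_⟩, hlam⟩
  · intro p r hp hpN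
    have := hrec.2.2 p r hp
    rw [eLevel, if_neg hpN] at this
    exact this
  · intro p r hp hpN
    have := hrec.2.2 p r hp
    rw [eLevel, if_pos hpN, zero_mul, sub_zero] at this
    exact this

/-- Same statement under the name used by the first landed version of this file (helper65);
kept so that either name can be cited. -/
theorem normalized_of_eigen [NeZero N] (f : CuspForm (Gamma0 N) 2) (hf : f ≠ 0) (lam : ℕ → ℂ)
    (hT : ∀ (ℓ : ℕ) (hℓ : ℓ.Prime) (hℓN : ¬ ℓ ∣ N), CuspForm.heckeTLin 2 hℓ hℓN f = lam ℓ • f)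
    (hU : ∀ (q : ℕ) (_ : q.Prime) (hqN : q ∣ N), CuspForm.heckeULin 2 hqN f = lam q • f) :
    qCoeff (⇑f) 1 ≠ 0 ∧ ((qCoeff (⇑f) 1)⁻¹ • f).IsNormalizedEigenform ∧
      ∀ ℓ : ℕ, ℓ.Prime → qCoeff (⇑((qCoeff (⇑f) 1)⁻¹ • f)) ℓ = lam ℓ :=
  isNormalizedEigenform_of_common_eigenvector f hf lam hT hU

end Fermat.Agent.S49x
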