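import Mathlib
import Fermat.Prelude.Def_CuspForm_HeckeAlgebra
import Fermat.Prelude.Def_CuspForm_IntegralLattice
import Fermat.Prelude.Def_CuspForm_IntegralStructure
import Fermat.Prelude.Def_FormalHecke_Eigensystem
import Fermat.Prelude.Thm_CuspForm_mem_intLattice_of_mem_heckeAlgebra
import Fermat.Agent.S49x.EigenToNormalized

set_option autoImplicit false

namespace Fermat.Agent.S49x

open CongruenceSubgroup ModularFormClass UpperHalfPlane EisensteinWeightOne

/-! ### The bridge product is congruent to the identity mod 3 -/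

theorem bridge_coeff_mod_three (a : ℕ → ℤ) (n : ℕ) :
    (3 : ℤ) ∣ (bridgeProduct a).coeff n - a n := by
  let G : PowerSeries ℤ := PowerSeries.mk fun n => if n = 0 then 0 else 2 * sigmaChi n
  have hE : e1Chi3In ℤ = 1 + PowerSeries.C (3 : ℤ) * G := by
    ext m
    simp only [e1Chi3In, e1Chi3, PowerSeries.coeff_map, PowerSeries.coeff_mk, map_add,
      PowerSeries.coeff_one, PowerSeries.coeff_C_mul, G]
    by_cases hm : m = 0
    · simp [hm]
    · simp [hm]; ring
  have : bridgeProduct a = PowerSeries.mk a + PowerSeries.C (3 : ℤ) * (PowerSeries.mk a * G) := by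
    rw [bridgeProduct, hE]; ring
  rw [this, map_add, PowerSeries.coeff_mk, PowerSeries.coeff_C_mul, add_sub_cancel_left]
  exact dvd_mul_right _ _

/-! ### `q`-coefficient API -/

variable {N : ℕ}

theorem qCoeff_add_cuspForm (f g : CuspForm (Gamma0 N) 2) (n : ℕ) :
    qCoeff (⇑(f + g)) n = qCoeff f n + qCoeff g n := by
  have h := ModularForm.qExpansion_add (h := 1) one_pos
    (CongruenceSubgroup.one_mem_strictPeriods_Gamma0 N) f g
  rw [qCoeff, FunLike.coe_add, h, qCoeff, qCoeff]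
  simp

theorem qCoeff_sub_cuspForm (f g : CuspForm (Gamma0 N) 2) (n : ℕ) :
    qCoeff (⇑(f - g)) n = qCoeff f n - qCoeff g n := by
  have h := ModularForm.qExpansion_sub (h := 1) one_pos
    (CongruenceSubgroup.one_mem_strictPeriods_Gamma0 N) f g
  rw [qCoeff, FunLike.coe_sub, h, qCoeff, qCoeff]
  simp

theorem qCoeff_zero_form (n : ℕ) : qCoeff (⇑(0 : CuspForm (Gamma0 N) 2)) n = 0 := by
  rw [qCoeff, FunLike.coe_zero, UpperHalfPlane.qExpansion_zero]
  simp

/-- Elements of the integral lattice have integral `q`-coefficients. -/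
theorem exists_int_qCoeff_of_mem_intLattice {x : CuspForm (Gamma0 N) 2}
    (hx : x ∈ CuspForm.intLattice N 2) (n : ℕ) : ∃ m : ℤ, qCoeff x n = (m : ℂ) := by
  induction hx using Submodule.span_induction with
  | mem y hy => exact hy n
  | zero => exact ⟨0, by rw [qCoeff_zero_form]; simp⟩
  | add y z _ _ hy hz =>
    obtain ⟨m₁, h₁⟩ := hy
    obtain ⟨m₂, h₂⟩ := hz
    exact ⟨m₁ + m₂, by rw [qCoeff_add_cuspForm, h₁, h₂]; push_cast; rfl⟩
  | smul c y _ hy =>
    obtain ⟨m, hm⟩ := hy
    refine ⟨c * m, ?_⟩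
    have : (c • y : CuspForm (Gamma0 N) 2) = (c : ℂ) • y := by
      rw [Int.cast_smul_eq_zsmul]
    rw [this, qCoeff_smul_cuspForm, hm]; push_cast; rfl

/-- A form with integral coefficients lies in the lattice. -/
theorem mem_intLattice_of_int_qCoeff {x : CuspForm (Gamma0 N) 2}
    (hx : ∀ n : ℕ, ∃ m : ℤ, qCoeff x n = (m : ℂ)) : x ∈ CuspForm.intLattice N 2 :=
  Submodule.subset_span hx

/-- A form all of whose coefficients are `3 ×` integers is `3 •` a lattice element. -/
theorem exists_eq_three_smul_of_qCoeff {x : CuspForm (Gamma0 N) 2}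
    (hx : ∀ n : ℕ, ∃ m : ℤ, qCoeff x n = 3 * (m : ℂ)) :
    ∃ y ∈ CuspForm.intLattice N 2, x = (3 : ℂ) • y := by
  refine ⟨(3 : ℂ)⁻¹ • x, mem_intLattice_of_int_qCoeff fun n => ?_, ?_⟩
  · obtain ⟨m, hm⟩ := hx n
    exact ⟨m, by rw [qCoeff_smul_cuspForm, hm]; field_simp⟩
  · rw [smul_smul, mul_inv_cancel₀ (by norm_num : (3 : ℂ) ≠ 0), one_smul]

end Fermat.Agent.S49x
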