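import Mathlib

set_option autoImplicit false

namespace Fermat.Agent.S49x

open Module

/-- A commuting family of endomorphisms that stabilises a nonzero finite-dimensional
subspace `W` has a common eigenvector inside `W`. -/
theorem exists_common_eigenvector_aux {V : Type*} [AddCommGroup V] [Module ℂ V]
    (𝒜 : Set (Module.End ℂ V)) (hcomm : ∀ a ∈ 𝒜, ∀ b ∈ 𝒜, Commute a b) :
    ∀ (n : ℕ) (W : Submodule ℂ V), FiniteDimensional ℂ W → finrank ℂ W = n → W ≠ ⊥ →
      (∀ a ∈ 𝒜, ∀ w ∈ W, a w ∈ W) →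
      ∃ v ∈ W, v ≠ 0 ∧ ∀ a ∈ 𝒜, ∃ μ : ℂ, a v = μ • v := by
  intro n
  induction n using Nat.strong_induction_on with
  | _ n ih =>
    intro W hfd hn hW hstab
    by_cases hsc : ∀ a ∈ 𝒜, ∃ μ : ℂ, ∀ w ∈ W, a w = μ • w
    · obtain ⟨v, hvW, hv0⟩ := Submodule.exists_mem_ne_zero_of_ne_bot hW
      exact ⟨v, hvW, hv0, fun a ha => let ⟨μ, hμ⟩ := hsc a ha; ⟨μ, hμ v hvW⟩⟩
    · push Not at hsc
      obtain ⟨a, ha, hna⟩ := hsc
      have : Nontrivial W := Submodule.nontrivial_iff_ne_bot.mpr hW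
      obtain ⟨μ, hμ⟩ := Module.End.exists_eigenvalue (a.restrict (hstab a ha))
      obtain ⟨w, hw⟩ := hμ.exists_hasEigenvector
      have hker : ∀ x : V, x ∈ LinearMap.ker (a - μ • (1 : Module.End ℂ V)) ↔ a x = μ • x := by
        intro x
        rw [LinearMap.mem_ker, LinearMap.sub_apply, LinearMap.smul_apply, Module.End.one_apply,
          sub_eq_zero]
      -- the eigenspace of `a` inside `W`
      have hW'le : W ⊓ LinearMap.ker (a - μ • (1 : Module.End ℂ V)) ≤ W := inf_le_left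
      have hwW' : (w : V) ∈ W ⊓ LinearMap.ker (a - μ • (1 : Module.End ℂ V)) := by
        refine Submodule.mem_inf.mpr ⟨w.2, (hker _).mpr ?_⟩
        have h1 := hw.apply_eq_smul
        have := congrArg (Subtype.val) h1
        simpa using this
      have hw0 : (w : V) ≠ 0 := by
        intro h
        exact hw.2 (Subtype.ext h)
      have hW'ne : W ⊓ LinearMap.ker (a - μ • (1 : Module.End ℂ V)) ≠ ⊥ :=
        fun h => hw0 (by simpa [h] using hwW')
      have hW'lt : W ⊓ LinearMap.ker (a - μ • (1 : Module.End ℂ V)) < W := by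
        refine lt_of_le_of_ne hW'le ?_
        intro hEq
        obtain ⟨x, hxW, hx⟩ := hna μ
        apply hx
        have : x ∈ W ⊓ LinearMap.ker (a - μ • (1 : Module.End ℂ V)) := by
          rw [hEq]; exact hxW
        exact (hker x).mp (Submodule.mem_inf.mp this).2
      have hfd' : FiniteDimensional ℂ ↥(W ⊓ LinearMap.ker (a - μ • (1 : Module.End ℂ V))) :=
        Submodule.finiteDimensional_of_le hW'le
      have hlt : finrank ℂ ↥(W ⊓ LinearMap.ker (a - μ • (1 : Module.End ℂ V))) < n :=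
        hn ▸ Submodule.finrank_lt_finrank_of_lt hW'lt
      have hstab' : ∀ b ∈ 𝒜, ∀ x ∈ W ⊓ LinearMap.ker (a - μ • (1 : Module.End ℂ V)),
          b x ∈ W ⊓ LinearMap.ker (a - μ • (1 : Module.End ℂ V)) := by
        intro b hb x hx
        obtain ⟨hx1, hx2⟩ := Submodule.mem_inf.mp hx
        refine Submodule.mem_inf.mpr ⟨hstab b hb x hx1, (hker _).mpr ?_⟩
        have hc : a (b x) = b (a x) := by
          have := hcomm a ha b hb
          exact congrArg (fun f => f x) this.eq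
        rw [hc, (hker x).mp hx2, map_smul]
      obtain ⟨v, hvW', hv0, hv⟩ := ih _ hlt _ hfd' rfl hW'ne hstab'
      exact ⟨v, hW'le hvW', hv0, hv⟩


/-- **Deligne–Serre style lifting**: a commutative ring `T`, finite over `ℤ`, acting faithfully on a
complex vector space `V`, and a prime `𝔫` of `T`.  Then there is a joint eigenvector whose
eigencharacter `ψ` takes values in `ℤ̄` and a maximal ideal `𝔪'` of `ℤ̄` with `ψ(𝔫) ⊆ 𝔪'`. -/
theorem exists_eigen_lift {T : Type*} [CommRing T] [Module.Finite ℤ T]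
    {V : Type*} [AddCommGroup V] [Module ℂ V]
    (ρ : T →+* Module.End ℂ V) (hρ : Function.Injective ρ) (𝔫 : Ideal T) [𝔫.IsPrime] :
    ∃ (v : V) (ψ : T →+* integralClosure ℤ ℂ) (𝔪' : Ideal (integralClosure ℤ ℂ)),
      v ≠ 0 ∧ (∀ t : T, ρ t v = ((ψ t : integralClosure ℤ ℂ) : ℂ) • v) ∧ 𝔪'.IsMaximal ∧
        𝔫 ≤ 𝔪'.comap ψ := by
  classical
  -- `T` is a noetherian ring
  have hnoethZ : IsNoetherian ℤ T := isNoetherian_of_isNoetherianRing_of_finite ℤ T
  have hnoeth : IsNoetherianRing T := isNoetherian_of_tower ℤ hnoethZ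
  have hintT : Algebra.IsIntegral ℤ T := Algebra.IsIntegral.of_finite ℤ T
  -- a minimal prime below `𝔫`, which is an associated prime
  obtain ⟨𝔭, h𝔭min, h𝔭le⟩ := Ideal.exists_minimalPrimes_le (bot_le : (⊥ : Ideal T) ≤ 𝔫)
  have hann : Module.annihilator T T = ⊥ := by
    rw [eq_bot_iff]
    intro a ha
    have := Module.mem_annihilator.mp ha (1 : T)
    simpa using this
  have hass : 𝔭 ∈ associatedPrimes T T := by
    apply Module.associatedPrimes.minimalPrimes_annihilator_subset_associatedPrimes T T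
    rw [hann]; exact h𝔭min
  obtain ⟨h𝔭prime, h₀, hh₀⟩ := (isAssociatedPrime_iff).mp hass
  have hmem : ∀ t : T, t ∈ 𝔭 ↔ t * h₀ = 0 := by
    intro t
    rw [hh₀, Submodule.mem_colon_singleton]
    simp
  have hh₀ne : h₀ ≠ 0 := by
    rintro rfl
    apply h𝔭prime.ne_top
    rw [Ideal.eq_top_iff_one, hmem]
    simp
  -- a vector not killed by `h₀`
  have hρh₀ : ρ h₀ ≠ 0 := fun h => hh₀ne (hρ (by simpa using h))
  obtain ⟨m, hm⟩ : ∃ m : V, ρ h₀ m ≠ 0 := by
    by_contra hcon
    push Not at hcon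
    exact hρh₀ (LinearMap.ext hcon)
  set w : V := ρ h₀ m with hw
  -- the cyclic `T`-module generated by `w`, spanned over `ℂ`
  let φ : T →ₗ[ℤ] V :=
    { toFun := fun t => ρ t w
      map_add' := fun a b => by simp
      map_smul' := fun n a => by simp }
  have hφ : ∀ t, φ t = ρ t w := fun _ => rfl
  let W : Submodule ℂ V := Submodule.span ℂ (LinearMap.range φ : Set V)
  have hWfd : FiniteDimensional ℂ W := by
    have hfg : (LinearMap.range φ).FG := by
      rw [LinearMap.range_eq_map]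
      exact Submodule.FG.map _ (Module.Finite.fg_top)
    obtain ⟨s, hs⟩ := hfg
    have : W = Submodule.span ℂ (s : Set V) := by
      show Submodule.span ℂ (LinearMap.range φ : Set V) = _
      rw [← hs, Submodule.span_span_of_tower]
    rw [this]
    exact FiniteDimensional.span_finset ℂ s
  have hwW : w ∈ W := Submodule.subset_span ⟨1, by simp [hφ]⟩
  have hWne : W ≠ ⊥ := fun h => hm (by simpa [h] using hwW)
  have hWstab : ∀ a ∈ Set.range ρ, ∀ x ∈ W, a x ∈ W := by
    rintro _ ⟨t, rfl⟩ x hx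
    induction hx using Submodule.span_induction with
    | mem y hy =>
      obtain ⟨t', rfl⟩ := hy
      exact Submodule.subset_span ⟨t * t', by simp [hφ]⟩
    | zero => simp
    | add y z _ _ hy hz => rw [map_add]; exact W.add_mem hy hz
    | smul c y _ hy => rw [map_smul]; exact W.smul_mem c hy
  have hWtors : ∀ x ∈ W, ∀ t ∈ 𝔭, ρ t x = 0 := by
    intro x hx t ht
    induction hx using Submodule.span_induction with
    | mem y hy =>
      obtain ⟨t', rfl⟩ := hy
      have h1 : t * t' * h₀ = 0 := by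
        rw [mul_comm t t', mul_assoc, (hmem t).mp ht, mul_zero]
      have h2 : ρ t (φ t') = ρ (t * t' * h₀) m := by
        simp [hφ, hw]
      rw [h2, h1]; simp
    | zero => simp
    | add y z _ _ hy hz => rw [map_add, hy, hz, add_zero]
    | smul c y _ hy => rw [map_smul, hy, smul_zero]
  have hcomm : ∀ a ∈ Set.range ρ, ∀ b ∈ Set.range ρ, Commute a b := by
    rintro _ ⟨a, rfl⟩ _ ⟨b, rfl⟩
    show ρ a * ρ b = ρ b * ρ a
    rw [← map_mul, ← map_mul, mul_comm]
  obtain ⟨v, hvW, hv0, hv⟩ :=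
    exists_common_eigenvector_aux (Set.range ρ) hcomm _ W hWfd rfl hWne hWstab
  have hinj : ∀ μ ν : ℂ, μ • v = ν • v → μ = ν := fun μ ν h => smul_left_injective ℂ hv0 h
  choose ψ₀ hψ₀ using fun t : T => hv (ρ t) ⟨t, rfl⟩
  -- `ψ₀` is a ring homomorphism
  let ψ₁ : T →+* ℂ :=
    { toFun := ψ₀
      map_one' := by
        apply hinj
        rw [← hψ₀, map_one, one_smul]; rfl
      map_mul' := fun a b => by
        apply hinj
        rw [← hψ₀, map_mul, Module.End.mul_apply, hψ₀ b, map_smul, hψ₀ a, smul_smul, mul_comm]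
      map_zero' := by
        apply hinj
        rw [← hψ₀, map_zero, zero_smul]; rfl
      map_add' := fun a b => by
        apply hinj
        rw [← hψ₀, map_add, LinearMap.add_apply, hψ₀ a, hψ₀ b, add_smul] }
  have hψ₁ : ∀ t, ρ t v = ψ₁ t • v := hψ₀
  have hψ₁int : ∀ t, ψ₁ t ∈ integralClosure ℤ ℂ := by
    intro t
    exact (hintT.isIntegral t).map (ψ₁.toIntAlgHom)
  -- kernel of `ψ₁` is `𝔭`
  have h𝔭ker : 𝔭 ≤ RingHom.ker ψ₁ := by
    intro t ht
    rw [RingHom.mem_ker]
    apply hinj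
    rw [← hψ₁, hWtors v hvW t ht, zero_smul]
  have hker𝔭 : RingHom.ker ψ₁ ≤ 𝔭 := by
    by_contra hnot
    obtain ⟨x, hxker, hx𝔭⟩ := Set.not_subset.mp hnot
    have hlt := Ideal.comap_lt_comap_of_integral_mem_sdiff (R := ℤ) h𝔭ker ⟨hxker, hx𝔭⟩
      (hintT.isIntegral x)
    obtain ⟨n, hn, hn'⟩ := Set.exists_of_ssubset hlt
    have hn0 : ψ₁ (algebraMap ℤ T n) = 0 := hn
    have : n = 0 := by
      have h3 : ((n : ℤ) : ℂ) = 0 := by simpa using hn0
      exact_mod_cast h3
    apply hn'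
    rw [this]
    simp
  have hker_le : RingHom.ker ψ₁ ≤ 𝔫 := hker𝔭.trans h𝔭le
  -- corestrict to `ℤ̄`
  let ψ : T →+* integralClosure ℤ ℂ := ψ₁.codRestrict (integralClosure ℤ ℂ) hψ₁int
  have hψ : ∀ t, ((ψ t : integralClosure ℤ ℂ) : ℂ) = ψ₁ t := fun _ => rfl
  have hkerψ : RingHom.ker ψ ≤ 𝔫 := by
    intro t ht
    apply hker_le
    rw [RingHom.mem_ker] at ht ⊢
    rw [← hψ, ht]; rfl
  -- lying over
  let _ : Algebra T (integralClosure ℤ ℂ) := ψ.toAlgebra
  have hintZ : Algebra.IsIntegral ℤ (integralClosure ℤ ℂ) := IsIntegralClosure.isIntegral_algebra ℤ ℂ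
  have hintTZ : Algebra.IsIntegral T (integralClosure ℤ ℂ) :=
    ⟨fun x => (hintZ.isIntegral x).tower_top⟩
  obtain ⟨Q, hQprime, hQ⟩ :=
    Ideal.exists_ideal_over_prime_of_isIntegral_of_isDomain (S := integralClosure ℤ ℂ) 𝔫 hkerψ
  obtain ⟨𝔪', h𝔪'max, hQ𝔪'⟩ := Ideal.exists_le_maximal Q hQprime.ne_top
  refine ⟨v, ψ, 𝔪', hv0, fun t => by rw [hψ]; exact hψ₁ t, h𝔪'max, ?_⟩
  intro t ht
  rw [Ideal.mem_comap]
  apply hQ𝔪'
  have : t ∈ Q.comap (algebraMap T (integralClosure ℤ ℂ)) := by rw [hQ]; exact ht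
  exact this

end Fermat.Agent.S49x
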