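import Mathlib
import Fermat.Prelude.Def_CuspForm_HeckeAlgebra
import Fermat.Prelude.Def_CuspForm_IntegralLattice
import Fermat.Prelude.Def_CuspForm_IntegralStructure
import Fermat.Prelude.Thm_CuspForm_intLattice_fg
import Fermat.Prelude.Thm_CuspForm_mem_intLattice_of_mem_heckeAlgebra

set_option autoImplicit false

namespace Fermat.Agent.S49x

open CongruenceSubgroup

/-- The `q`-integral forms lie in the Prelude lattice `intLattice N 2`. -/
theorem qIntegralSet_subset_intLattice (N : ℕ) :
    CuspForm.qIntegralSet N ⊆ (CuspForm.intLattice N 2 : Set (CuspForm (Gamma0 N) 2)) := by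
  intro f hf
  refine Submodule.subset_span ?_
  intro n
  obtain ⟨m, hm⟩ := Subring.mem_bot.mp (hf n)
  exact ⟨m, hm.symm⟩

/-- If the `q`-integral forms span, the lattice spans. -/
theorem span_intLattice_eq_top {N : ℕ} (h : CuspForm.HasIntegralBasis N) :
    Submodule.span ℂ (CuspForm.intLattice N 2 : Set (CuspForm (Gamma0 N) 2)) = ⊤ := by
  rw [eq_top_iff, ← h]
  exact Submodule.span_mono (qIntegralSet_subset_intLattice N)

/-- Under `HasIntegralBasis`, the Hecke algebra (any `S`) is a finite `ℤ`-module:
it embeds into `L^s` for a finite generating set `s` of the `q`-integral lattice `L`. -/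
theorem heckeAlgebra_finite_of_hasIntegralBasis {N : ℕ} [NeZero N]
    (h : CuspForm.HasIntegralBasis N) (S : Set ℕ) :
    Module.Finite ℤ (CuspForm.heckeAlgebra N 2 S) := by
  classical
  obtain ⟨s, hs⟩ := CuspForm.intLattice_fg N 2
  have hstab : ∀ t : CuspForm.heckeAlgebra N 2 S, ∀ x ∈ CuspForm.intLattice N 2,
      (t : Module.End ℂ (CuspForm (Gamma0 N) 2)) x ∈ CuspForm.intLattice N 2 :=
    fun t x hx => CuspForm.mem_intLattice_of_mem_heckeAlgebra (by norm_num) t.2 hx
  have hsL : ∀ g : s, (g : CuspForm (Gamma0 N) 2) ∈ CuspForm.intLattice N 2 := by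
    intro g
    rw [← hs]
    exact Submodule.subset_span g.2
  let Φ : CuspForm.heckeAlgebra N 2 S →ₗ[ℤ] (s → CuspForm.intLattice N 2) :=
    { toFun := fun t g => ⟨(t : Module.End ℂ (CuspForm (Gamma0 N) 2)) g, hstab t g (hsL g)⟩
      map_add' := fun a b => by
        funext g
        apply Subtype.ext
        simp
      map_smul' := fun n a => by
        funext g
        apply Subtype.ext
        simp }
  have hΦ : Function.Injective Φ := by
    rw [← LinearMap.ker_eq_bot, LinearMap.ker_eq_bot']
    intro t ht
    apply Subtype.ext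
    have h0 : ∀ g ∈ s, (t : Module.End ℂ (CuspForm (Gamma0 N) 2)) g = 0 := by
      intro g hg
      have := congrFun ht ⟨g, hg⟩
      exact congrArg Subtype.val this
    have h1 : ∀ x ∈ CuspForm.intLattice N 2,
        (t : Module.End ℂ (CuspForm (Gamma0 N) 2)) x = 0 := by
      intro x hx
      rw [← hs] at hx
      induction hx using Submodule.span_induction with
      | mem y hy => exact h0 y hy
      | zero => simp
      | add y z _ _ hy hz => rw [map_add, hy, hz, add_zero]
      | smul c y _ hy => rw [map_zsmul, hy, smul_zero]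
    have h2 : ∀ x ∈ Submodule.span ℂ
        (CuspForm.intLattice N 2 : Set (CuspForm (Gamma0 N) 2)),
        (t : Module.End ℂ (CuspForm (Gamma0 N) 2)) x = 0 := by
      intro x hx
      induction hx using Submodule.span_induction with
      | mem y hy => exact h1 y hy
      | zero => simp
      | add y z _ _ hy hz => rw [map_add, hy, hz, add_zero]
      | smul c y _ hy => rw [map_smul, hy, smul_zero]
    apply LinearMap.ext
    intro x
    have hx : x ∈ Submodule.span ℂ
        (CuspForm.intLattice N 2 : Set (CuspForm (Gamma0 N) 2)) := by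
      rw [span_intLattice_eq_top h]; trivial
    simpa using h2 x hx
  have hLfin : Module.Finite ℤ (CuspForm.intLattice N 2) :=
    Module.Finite.iff_fg.mpr (CuspForm.intLattice_fg N 2)
  exact Module.Finite.of_injective Φ hΦ

end Fermat.Agent.S49x
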