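import Mathlib
import Fermat.Agent.S49x.ModThree

set_option autoImplicit false

namespace Fermat.Agent.S49x

open CongruenceSubgroup ModularFormClass UpperHalfPlane EisensteinWeightOne

variable {N : ℕ}

/-- `ℓ ≡ χ₋₃(ℓ) (mod 3)`. -/
theorem three_dvd_sub_chiNegThree (ℓ : ℕ) : (3 : ℤ) ∣ (ℓ : ℤ) - chiNegThree ℓ := by
  unfold chiNegThree
  have h := Nat.div_add_mod ℓ 3
  have h3 : ℓ % 3 < 3 := Nat.mod_lt _ (by norm_num)
  split_ifs with h1 h2
  · exact ⟨(ℓ / 3 : ℕ), by omega⟩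
  · exact ⟨(ℓ / 3 : ℕ) + 1, by omega⟩
  · exact ⟨(ℓ / 3 : ℕ), by omega⟩

/-- Data of a lattice-realised eigensystem, unpacked. -/
structure RealData (N : ℕ) (a : ℕ → ℤ) where
  F : CuspForm (Gamma0 N) 2
  af : ℕ → ℤ
  haf : ∀ n, (af n : ℂ) = qCoeff F n
  hcong : ∀ n, (3 : ℤ) ∣ af n - a n

theorem RealData.nonempty_of_isLatticeRealized {a : ℕ → ℤ} (h : CuspForm.IsLatticeRealized N a) :
    Nonempty (RealData N a) := by
  obtain ⟨F, -, af, haf, hdiv⟩ := h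
  refine ⟨⟨F, af, haf, fun n => ?_⟩⟩
  have h1 := hdiv n
  have h2 := bridge_coeff_mod_three a n
  have : af n - a n = (af n - (bridgeProduct a).coeff n) + ((bridgeProduct a).coeff n - a n) := by
    ring
  rw [this]
  exact dvd_add h1 h2

namespace RealData

variable {a : ℕ → ℤ} (D : RealData N a)

theorem F_mem : D.F ∈ CuspForm.intLattice N 2 :=
  mem_intLattice_of_int_qCoeff fun n => ⟨D.af n, (D.haf n).symm⟩

/-- The Hecke relation mod 3 for `T_ℓ`. -/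
theorem heckeT_sub_mem
    (heig : FormalHecke.IsEigensystem
      (fun ℓ => if ℓ ∣ N then 0 else ((chiNegThree ℓ : ℤ) : ℤ)) a)
    {ℓ : ℕ} (hℓ : ℓ.Prime) (hℓN : ¬ ℓ ∣ N) :
    ∃ y ∈ CuspForm.intLattice N 2,
      CuspForm.heckeTLin 2 hℓ hℓN D.F - ((a ℓ : ℤ) : ℂ) • D.F = (3 : ℂ) • y := by
  apply exists_eq_three_smul_of_qCoeff
  intro n
  rw [qCoeff_sub_cuspForm, qCoeff_heckeTLin_two, qCoeff_smul_cuspForm]
  simp only [← D.haf]
  have hrel := heig.2 ℓ hℓ n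
  simp only [if_neg hℓN] at hrel
  by_cases hd : ℓ ∣ n
  · rw [if_pos hd]
    rw [if_pos hd] at hrel
    obtain ⟨k₁, hk₁⟩ := D.hcong (n * ℓ)
    obtain ⟨k₂, hk₂⟩ := D.hcong (n / ℓ)
    obtain ⟨k₃, hk₃⟩ := D.hcong n
    obtain ⟨k₄, hk₄⟩ := three_dvd_sub_chiNegThree ℓ
    refine ⟨k₁ + (ℓ : ℤ) * k₂ + k₄ * a (n / ℓ) - a ℓ * k₃, ?_⟩
    have e1 : D.af (n * ℓ) = a (n * ℓ) + 3 * k₁ := by linarith
    have e2 : D.af (n / ℓ) = a (n / ℓ) + 3 * k₂ := by linarith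
    have e3 : D.af n = a n + 3 * k₃ := by linarith
    have e4 : (ℓ : ℤ) = chiNegThree ℓ + 3 * k₄ := by linarith
    have e5 : a (n * ℓ) = a ℓ * a n - chiNegThree ℓ * a (n / ℓ) := by
      rw [mul_comm n ℓ]; linarith
    have : (D.af (n * ℓ) + (ℓ : ℤ) * D.af (n / ℓ) - a ℓ * D.af n : ℤ) =
        3 * (k₁ + (ℓ : ℤ) * k₂ + k₄ * a (n / ℓ) - a ℓ * k₃) := by
      rw [e1, e2, e3, e5]
      have : (ℓ : ℤ) * (a (n / ℓ) + 3 * k₂) =
          (chiNegThree ℓ + 3 * k₄) * a (n / ℓ) + 3 * ((ℓ : ℤ) * k₂) := by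
        rw [← e4]; ring
      rw [this]; ring
    have h2 := congrArg (fun z : ℤ => (z : ℂ)) this
    push_cast at h2 ⊢
    linear_combination h2
  · rw [if_neg hd, add_zero]
    rw [if_neg hd, mul_zero, add_zero] at hrel
    obtain ⟨k₁, hk₁⟩ := D.hcong (n * ℓ)
    obtain ⟨k₃, hk₃⟩ := D.hcong n
    refine ⟨k₁ - a ℓ * k₃, ?_⟩
    have e1 : D.af (n * ℓ) = a (n * ℓ) + 3 * k₁ := by linarith
    have e3 : D.af n = a n + 3 * k₃ := by linarith
    have e5 : a (n * ℓ) = a ℓ * a n := by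
      rw [mul_comm n ℓ]; linarith
    have : (D.af (n * ℓ) - a ℓ * D.af n : ℤ) = 3 * (k₁ - a ℓ * k₃) := by
      rw [e1, e3, e5]; ring
    have h2 := congrArg (fun z : ℤ => (z : ℂ)) this
    push_cast at h2 ⊢
    linear_combination h2

/-- The Hecke relation mod 3 for `U_q`. -/
theorem heckeU_sub_mem [NeZero N]
    (heig : FormalHecke.IsEigensystem
      (fun ℓ => if ℓ ∣ N then 0 else ((chiNegThree ℓ : ℤ) : ℤ)) a)
    {q : ℕ} (hq : q.Prime) (hqN : q ∣ N) :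
    ∃ y ∈ CuspForm.intLattice N 2,
      CuspForm.heckeULin 2 hqN D.F - ((a q : ℤ) : ℂ) • D.F = (3 : ℂ) • y := by
  apply exists_eq_three_smul_of_qCoeff
  intro n
  rw [qCoeff_sub_cuspForm, qCoeff_heckeULin_two _ hq, qCoeff_smul_cuspForm]
  simp only [← D.haf]
  have hrel := heig.2 q hq n
  simp only [if_pos hqN, zero_mul, add_zero] at hrel
  obtain ⟨k₁, hk₁⟩ := D.hcong (n * q)
  obtain ⟨k₃, hk₃⟩ := D.hcong n
  refine ⟨k₁ - a q * k₃, ?_⟩
  have e1 : D.af (n * q) = a (n * q) + 3 * k₁ := by linarith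
  have e3 : D.af n = a n + 3 * k₃ := by linarith
  have e5 : a (n * q) = a q * a n := by
    rw [mul_comm n q]; exact hrel
  have : (D.af (n * q) - a q * D.af n : ℤ) = 3 * (k₁ - a q * k₃) := by
    rw [e1, e3, e5]; ring
  have h2 := congrArg (fun z : ℤ => (z : ℂ)) this
  push_cast at h2 ⊢
  linear_combination h2

end RealData

end Fermat.Agent.S49x
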