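import Mathlib
import Fermat.Agent.S49x.ResidualIdeal

set_option autoImplicit false

namespace Fermat.Agent.S49x

open CongruenceSubgroup ModularFormClass UpperHalfPlane EisensteinWeightOne

variable {N : ℕ} [NeZero N] {a : ℕ → ℤ}

/-- The Hecke algebra preserves the integral lattice. -/
theorem hecke_stab {S : Set ℕ} {t : Module.End ℂ (CuspForm (Gamma0 N) 2)}
    (ht : t ∈ CuspForm.heckeAlgebra N 2 S) {x : CuspForm (Gamma0 N) 2}
    (hx : x ∈ CuspForm.intLattice N 2) : t x ∈ CuspForm.intLattice N 2 :=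
  CuspForm.mem_intLattice_of_mem_heckeAlgebra (by norm_num) ht hx

namespace RealData

variable (D : RealData N a)

omit [NeZero N] in
theorem three_not_dvd_af_one
    (heig : FormalHecke.IsEigensystem
      (fun ℓ => if ℓ ∣ N then 0 else ((chiNegThree ℓ : ℤ) : ℤ)) a) :
    ¬ (3 : ℤ) ∣ D.af 1 := by
  intro h
  have h1 := D.hcong 1
  rw [heig.1] at h1
  have h2 := dvd_sub h h1
  have h3 : D.af 1 - (D.af 1 - 1) = 1 := by ring
  rw [h3] at h2
  norm_num at h2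

omit [NeZero N] in
/-- If `k • F ∈ 3L` then `3 ∣ k`. -/
theorem three_dvd_of_smul_eq
    (heig : FormalHecke.IsEigensystem
      (fun ℓ => if ℓ ∣ N then 0 else ((chiNegThree ℓ : ℤ) : ℤ)) a)
    (k : ℤ) {y : CuspForm (Gamma0 N) 2} (hy : y ∈ CuspForm.intLattice N 2)
    (h : (k : ℂ) • D.F = (3 : ℂ) • y) : (3 : ℤ) ∣ k := by
  obtain ⟨m, hm⟩ := exists_int_qCoeff_of_mem_intLattice hy 1
  have h1 : qCoeff (⇑((k : ℂ) • D.F)) 1 = qCoeff (⇑((3 : ℂ) • y)) 1 := by rw [h]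
  rw [qCoeff_smul_cuspForm, qCoeff_smul_cuspForm, hm, ← D.haf] at h1
  have h2 : k * D.af 1 = 3 * m := by exact_mod_cast h1
  have h3 : (3 : ℤ) ∣ k * D.af 1 := ⟨m, h2⟩
  have hp : Prime (3 : ℤ) := by norm_num
  rcases hp.dvd_or_dvd h3 with h4 | h4
  · exact h4
  · exact absurd h4 (D.three_not_dvd_af_one heig)

/-- Every element of the full Hecke algebra acts on `F` as an integer modulo `3L`. -/
theorem exists_eigen_mod_three
    (heig : FormalHecke.IsEigensystem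
      (fun ℓ => if ℓ ∣ N then 0 else ((chiNegThree ℓ : ℤ) : ℤ)) a)
    {t : Module.End ℂ (CuspForm (Gamma0 N) 2)}
    (ht : t ∈ CuspForm.heckeAlgebra N 2 (∅ : Set ℕ)) :
    ∃ c : ℤ, ∃ y ∈ CuspForm.intLattice N 2, t D.F - (c : ℂ) • D.F = (3 : ℂ) • y := by
  induction ht using Algebra.adjoin_induction with
  | mem x hx =>
    rcases hx with ⟨ℓ, hℓ, hℓN, -, rfl⟩ | ⟨q, hqN, hq, -, rfl⟩
    · obtain ⟨y, hy, h⟩ := D.heckeT_sub_mem heig hℓ hℓN
      exact ⟨a ℓ, y, hy, h⟩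
    · obtain ⟨y, hy, h⟩ := D.heckeU_sub_mem heig hq hqN
      exact ⟨a q, y, hy, h⟩
  | algebraMap r =>
    refine ⟨r, 0, Submodule.zero_mem _, ?_⟩
    simp only [smul_zero]
    rw [Algebra.algebraMap_eq_smul_one, LinearMap.smul_apply, Module.End.one_apply,
      Int.cast_smul_eq_zsmul, sub_self]
  | add x y hx hy hx' hy' =>
    obtain ⟨c₁, y₁, hy₁, h₁⟩ := hx'
    obtain ⟨c₂, y₂, hy₂, h₂⟩ := hy'
    refine ⟨c₁ + c₂, y₁ + y₂, Submodule.add_mem _ hy₁ hy₂, ?_⟩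
    rw [LinearMap.add_apply, smul_add, ← h₁, ← h₂]
    push_cast
    rw [add_smul]
    abel
  | mul x y hx hy hx' hy' =>
    obtain ⟨c₁, y₁, hy₁, h₁⟩ := hx'
    obtain ⟨c₂, y₂, hy₂, h₂⟩ := hy'
    refine ⟨c₁ * c₂, (c₂ : ℤ) • y₁ + x y₂,
      Submodule.add_mem _ (Submodule.smul_mem _ _ hy₁) (hecke_stab hx hy₂), ?_⟩
    have e₂ : y D.F = (c₂ : ℂ) • D.F + (3 : ℂ) • y₂ := by rw [← h₂]; abel
    have e₁ : x D.F = (c₁ : ℂ) • D.F + (3 : ℂ) • y₁ := by rw [← h₁]; abel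
    rw [Module.End.mul_apply, e₂, map_add, map_smul, map_smul, e₁]
    push_cast
    rw [← Int.cast_smul_eq_zsmul ℂ c₂ y₁]
    simp only [smul_add, smul_smul]
    module

/-- The residual ideal: Hecke operators sending `F` into `3L`. -/
def residualIdeal : Ideal (CuspForm.heckeAlgebra N 2 (∅ : Set ℕ)) where
  carrier := {t | ∃ y ∈ CuspForm.intLattice N 2,
    (t : Module.End ℂ (CuspForm (Gamma0 N) 2)) D.F = (3 : ℂ) • y}
  add_mem' := by
    rintro s t ⟨y₁, hy₁, h₁⟩ ⟨y₂, hy₂, h₂⟩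
    refine ⟨y₁ + y₂, Submodule.add_mem _ hy₁ hy₂, ?_⟩
    show ((s : Module.End ℂ (CuspForm (Gamma0 N) 2)) + t) D.F = _
    rw [LinearMap.add_apply, h₁, h₂, smul_add]
  zero_mem' := ⟨0, Submodule.zero_mem _, by simp⟩
  smul_mem' := by
    rintro s t ⟨y, hy, h⟩
    refine ⟨(s : Module.End ℂ (CuspForm (Gamma0 N) 2)) y, hecke_stab s.2 hy, ?_⟩
    show ((s : Module.End ℂ (CuspForm (Gamma0 N) 2)) * t) D.F = _
    rw [Module.End.mul_apply, h, map_smul]

theorem mem_residualIdeal (t : CuspForm.heckeAlgebra N 2 (∅ : Set ℕ)) :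
    t ∈ D.residualIdeal ↔ ∃ y ∈ CuspForm.intLattice N 2,
      (t : Module.End ℂ (CuspForm (Gamma0 N) 2)) D.F = (3 : ℂ) • y := Iff.rfl

theorem residualIdeal_isPrime
    (heig : FormalHecke.IsEigensystem
      (fun ℓ => if ℓ ∣ N then 0 else ((chiNegThree ℓ : ℤ) : ℤ)) a) :
    D.residualIdeal.IsPrime := by
  refine ⟨?_, ?_⟩
  · rw [Ideal.ne_top_iff_one]
    rintro ⟨y, hy, h⟩
    have h1 : ((1 : ℤ) : ℂ) • D.F = (3 : ℂ) • y := by
      rw [← h]; simp
    have := D.three_dvd_of_smul_eq heig 1 hy h1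
    norm_num at this
  · intro s t hst
    obtain ⟨cs, ys, hys, hs⟩ := D.exists_eigen_mod_three heig s.2
    obtain ⟨ct, yt, hyt, ht⟩ := D.exists_eigen_mod_three heig t.2
    obtain ⟨y, hy, h⟩ := hst
    have es : (s : Module.End ℂ (CuspForm (Gamma0 N) 2)) D.F = (cs : ℂ) • D.F + (3 : ℂ) • ys := by
      rw [← hs]; abel
    have et : (t : Module.End ℂ (CuspForm (Gamma0 N) 2)) D.F = (ct : ℂ) • D.F + (3 : ℂ) • yt := by
      rw [← ht]; abel
    have h' : ((s : Module.End ℂ (CuspForm (Gamma0 N) 2)) * t) D.F = (3 : ℂ) • y := h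
    rw [Module.End.mul_apply, et, map_add, map_smul, map_smul, es] at h'
    have hkey : ((cs * ct : ℤ) : ℂ) • D.F = (3 : ℂ) •
        (y - (ct : ℤ) • ys - (s : Module.End ℂ (CuspForm (Gamma0 N) 2)) yt) := by
      rw [← Int.cast_smul_eq_zsmul ℂ ct ys]
      simp only [smul_sub, smul_smul]
      rw [← h']
      push_cast
      simp only [smul_add, smul_smul]
      module
    have hmem : y - (ct : ℤ) • ys - (s : Module.End ℂ (CuspForm (Gamma0 N) 2)) yt ∈
        CuspForm.intLattice N 2 :=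
      Submodule.sub_mem _ (Submodule.sub_mem _ hy (Submodule.smul_mem _ _ hys))
        (hecke_stab s.2 hyt)
    have hdvd := D.three_dvd_of_smul_eq heig (cs * ct) hmem hkey
    have hp : Prime (3 : ℤ) := by norm_num
    rcases hp.dvd_or_dvd hdvd with ⟨k, hk⟩ | ⟨k, hk⟩
    · left
      refine ⟨(k : ℤ) • D.F + ys, Submodule.add_mem _ (Submodule.smul_mem _ _ D.F_mem) hys, ?_⟩
      rw [es, hk, ← Int.cast_smul_eq_zsmul ℂ k D.F]
      push_cast
      simp only [smul_add, smul_smul]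
    · right
      refine ⟨(k : ℤ) • D.F + yt, Submodule.add_mem _ (Submodule.smul_mem _ _ D.F_mem) hyt, ?_⟩
      rw [et, hk, ← Int.cast_smul_eq_zsmul ℂ k D.F]
      push_cast
      simp only [smul_add, smul_smul]

end RealData

end Fermat.Agent.S49x
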