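import Mathlib

set_option autoImplicit false

namespace Fermat.Agent.S49x

open Module

section CommonEigen

variable {K V : Type*} [Field K] [IsAlgClosed K] [AddCommGroup V] [Module K V]
  [FiniteDimensional K V]
variable {R : Type*} [CommRing R] (ρ : R →+* Module.End K V)

/-- The simultaneous generalized eigenspace attached to a function `χ : R → K`. -/
def simGenEig (χ : R → K) : Submodule K V := ⨅ r, (ρ r).maxGenEigenspace (χ r)

omit [IsAlgClosed K] [FiniteDimensional K V] in
theorem commute_rho (r s : R) : Commute (ρ r) (ρ s) := by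
  show ρ r * ρ s = ρ s * ρ r
  rw [← map_mul, ← map_mul, mul_comm]

theorem iSup_simGenEig : ⨆ χ : R → K, simGenEig ρ χ = ⊤ :=
  Module.End.iSup_iInf_maxGenEigenspace_eq_top_of_iSup_maxGenEigenspace_eq_top_of_commute
    (fun r => ρ r) (fun r s _ => commute_rho ρ r s)
    (fun r => Module.End.iSup_maxGenEigenspace_eq_top (ρ r))

omit [IsAlgClosed K] [FiniteDimensional K V] in
theorem simGenEig_stable (χ : R → K) (s : R) (v : V) (hv : v ∈ simGenEig ρ χ) :
    ρ s v ∈ simGenEig ρ χ := by
  rw [simGenEig, Submodule.mem_iInf] at hv ⊢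
  intro r
  exact Module.End.mapsTo_maxGenEigenspace_of_comm (commute_rho ρ r s) (χ r) (hv r)

omit [IsAlgClosed K] [FiniteDimensional K V] in
theorem pow_sub_mem_of_stable (M : Submodule K V) (hM : ∀ r, ∀ v ∈ M, ρ r v ∈ M) (r : R) (c : K)
    (j : ℕ) : ∀ x ∈ M, ((ρ r - c • (1 : Module.End K V)) ^ j) x ∈ M := by
  induction j with
  | zero => intro x hx; simpa using hx
  | succ j ih =>
    intro x hx
    rw [pow_succ', Module.End.mul_apply]
    have := ih x hx
    rw [LinearMap.sub_apply, LinearMap.smul_apply, Module.End.one_apply]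
    exact M.sub_mem (hM r _ this) (M.smul_mem c this)

omit [IsAlgClosed K] in
/-- A nonzero simultaneous generalized eigenspace contains a common eigenvector. -/
theorem exists_common_eigenvector (χ : R → K) (h : simGenEig ρ χ ≠ ⊥) :
    ∃ v : V, v ≠ 0 ∧ ∀ r, ρ r v = χ r • v := by
  classical
  let P : ℕ → Prop := fun n => ∃ M : Submodule K V, M ≠ ⊥ ∧ M ≤ simGenEig ρ χ ∧
    (∀ r, ∀ v ∈ M, ρ r v ∈ M) ∧ finrank K M = n
  have hP : ∃ n, P n := ⟨_, simGenEig ρ χ, h, le_rfl, fun r v hv => simGenEig_stable ρ χ r v hv, rfl⟩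
  obtain ⟨M, hM0, hMle, hMst, hMn⟩ := Nat.find_spec hP
  have hmin : ∀ M' : Submodule K V, M' ≠ ⊥ → M' ≤ simGenEig ρ χ →
      (∀ r, ∀ v ∈ M', ρ r v ∈ M') → finrank K M ≤ finrank K M' := by
    intro M' h0 hle hst
    rw [hMn]
    exact Nat.find_min' hP ⟨M', h0, hle, hst, rfl⟩
  have key : ∀ r, M ≤ (ρ r).eigenspace (χ r) := by
    intro r
    set E : Submodule K V := M ⊓ (ρ r).eigenspace (χ r) with hE
    have hEst : ∀ s, ∀ v ∈ E, ρ s v ∈ E := by
      intro s v hv
      rw [hE, Submodule.mem_inf] at hv ⊢
      refine ⟨hMst s v hv.1, ?_⟩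
      rw [Module.End.mem_eigenspace_iff] at hv ⊢
      have hc : ρ r (ρ s v) = ρ s (ρ r v) := by
        have := commute_rho ρ r s
        exact congrArg (fun f => f v) this.eq
      rw [hc, hv.2, map_smul]
    have hE0 : E ≠ ⊥ := by
      obtain ⟨w, hwM, hw0⟩ := Submodule.exists_mem_ne_zero_of_ne_bot hM0
      have hw : w ∈ (ρ r).maxGenEigenspace (χ r) := by
        have := hMle hwM
        rw [simGenEig, Submodule.mem_iInf] at this
        exact this r
      rw [Module.End.mem_maxGenEigenspace] at hw
      have hk0 : Nat.find hw ≠ 0 := by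
        intro h0
        have := Nat.find_spec hw
        rw [h0, pow_zero, Module.End.one_apply] at this
        exact hw0 this
      obtain ⟨j, hj⟩ := Nat.exists_eq_succ_of_ne_zero hk0
      set u : V := ((ρ r - χ r • (1 : Module.End K V)) ^ j) w with hu
      have hu0 : u ≠ 0 := Nat.find_min hw (by omega : j < Nat.find hw)
      have huM : u ∈ M := pow_sub_mem_of_stable ρ M hMst r (χ r) j w hwM
      have hue : (ρ r - χ r • (1 : Module.End K V)) u = 0 := by
        have := Nat.find_spec hw
        rw [hj, pow_succ', Module.End.mul_apply] at this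
        exact this
      have huE : u ∈ E := by
        rw [hE, Submodule.mem_inf]
        refine ⟨huM, ?_⟩
        rw [Module.End.mem_eigenspace_iff]
        rw [LinearMap.sub_apply, LinearMap.smul_apply, Module.End.one_apply, sub_eq_zero] at hue
        exact hue
      intro hbot
      rw [hbot, Submodule.mem_bot] at huE
      exact hu0 huE
    have hEM : E ≤ M := inf_le_left
    have hfin := hmin E hE0 (hEM.trans hMle) hEst
    have : E = M := Submodule.eq_of_le_of_finrank_le hEM hfin
    rw [← this]
    exact inf_le_right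
  obtain ⟨v, hvM, hv0⟩ := Submodule.exists_mem_ne_zero_of_ne_bot hM0
  refine ⟨v, hv0, fun r => ?_⟩
  have := key r hvM
  rwa [Module.End.mem_eigenspace_iff] at this

omit [IsAlgClosed K] [FiniteDimensional K V] in
/-- The eigenvalue function of a common eigenvector is a ring homomorphism. -/
theorem exists_ringHom_of_eigenvector (χ : R → K) (v : V) (hv : v ≠ 0)
    (h : ∀ r, ρ r v = χ r • v) : ∃ φ : R →+* K, ∀ r, φ r = χ r := by
  have inj := smul_left_injective K hv
  refine ⟨{ toFun := χ, map_one' := ?_, map_mul' := ?_, map_zero' := ?_, map_add' := ?_ },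
    fun r => rfl⟩
  · apply inj
    simp only
    rw [← h 1, map_one, Module.End.one_apply, one_smul]
  · intro r s
    apply inj
    simp only
    rw [← h (r * s), map_mul, Module.End.mul_apply, h s, map_smul, h r, smul_smul, mul_comm]
  · apply inj
    simp only
    rw [← h 0, map_zero, LinearMap.zero_apply, zero_smul]
  · intro r s
    apply inj
    simp only
    rw [← h (r + s), map_add, LinearMap.add_apply, h r, h s, add_smul]

/-- Key existence statement: a prime ideal containing the kernel of `ρ` contains the kernel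
of an eigencharacter occurring in `V`. -/
theorem exists_eigenvector_ker_le (m : Ideal R) [hm : m.IsPrime] (hker : RingHom.ker ρ ≤ m) :
    ∃ (v : V) (φ : R →+* K), v ≠ 0 ∧ (∀ r, ρ r v = φ r • v) ∧ RingHom.ker φ ≤ m := by
  classical
  by_contra hcon
  push Not at hcon
  -- for every χ with nonzero simultaneous eigenspace, some element of `ker χ` is outside `m`
  have hχ : ∀ χ : R → K, ∃ t : R, t ∉ m ∧
      ∀ x ∈ simGenEig ρ χ, ((ρ t) ^ (finrank K V)) x = 0 := by
    intro χ
    by_cases h0 : simGenEig ρ χ = ⊥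
    · refine ⟨1, fun h1 => hm.ne_top ((Ideal.eq_top_iff_one m).mpr h1), fun x hx => ?_⟩
      rw [h0, Submodule.mem_bot] at hx
      rw [hx, map_zero]
    · obtain ⟨v, hv0, hv⟩ := exists_common_eigenvector ρ χ h0
      obtain ⟨φ, hφ⟩ := exists_ringHom_of_eigenvector ρ χ v hv0 hv
      have hnot : ¬ RingHom.ker φ ≤ m :=
        hcon v φ hv0 (fun r => by rw [hφ r]; exact hv r)
      obtain ⟨t, htker, htm⟩ := SetLike.not_le_iff_exists.mp hnot
      refine ⟨t, htm, fun x hx => ?_⟩
      rw [RingHom.mem_ker, hφ] at htker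
      rw [simGenEig, Submodule.mem_iInf] at hx
      have := hx t
      rw [Module.End.maxGenEigenspace_eq_genEigenspace_finrank, Module.End.mem_genEigenspace_nat,
        htker, zero_smul, sub_zero, LinearMap.mem_ker] at this
      exact this
  choose t htm ht using hχ
  -- compactness: finitely many χ suffice
  have hcpt : IsCompactElement (⊤ : Submodule K V) :=
    (Submodule.fg_iff_compact ⊤).mp Module.Finite.fg_top
  obtain ⟨s, hs⟩ := CompleteLattice.IsCompactElement.exists_finset_of_le_iSup (Submodule K V) hcpt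
    (fun χ : R → K => simGenEig ρ χ)
    (iSup_simGenEig ρ).ge
  set P : R := ∏ χ ∈ s, (t χ) ^ (finrank K V) with hP
  have hPm : P ∉ m := by
    intro hPm
    rw [hP] at hPm
    obtain ⟨χ, -, hχ⟩ := (Ideal.IsPrime.prod_mem_iff).mp hPm
    exact htm χ (hm.mem_of_pow_mem _ hχ)
  apply hPm
  apply hker
  rw [RingHom.mem_ker]
  apply LinearMap.ext
  intro x
  rw [LinearMap.zero_apply]
  have hx : x ∈ ⨆ χ ∈ s, simGenEig ρ χ := hs Submodule.mem_top
  induction hx using Submodule.iSup_induction' with
  | mem χ y hy =>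
    by_cases hχs : χ ∈ s
    · rw [iSup_pos hχs] at hy
      rw [hP, ← Finset.mul_prod_erase s _ hχs, mul_comm, map_mul, Module.End.mul_apply, map_pow,
        ht χ y hy, map_zero]
    · rw [iSup_neg hχs, Submodule.mem_bot] at hy
      rw [hy, map_zero]
  | zero => rw [map_zero]
  | add y z _ _ hy hz => rw [map_add, hy, hz, add_zero]

end CommonEigen

section Lift

variable {V : Type*} [AddCommGroup V] [Module ℂ V] [FiniteDimensional ℂ V]
variable {R : Type*} [CommRing R] (ρ : R →+* Module.End ℂ V)

/-- Deligne–Serre lifting, algebraic core: given a commutative ring `R`, integral over `ℤ`,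
acting on a finite-dimensional complex vector space, and a maximal ideal `m` of `R` containing
the kernel of the action, there is a common eigenvector whose eigencharacter takes values in
the algebraic integers, together with a maximal ideal `m'` of the algebraic integers
whose preimage under the eigencharacter is `m`. -/
theorem exists_integral_eigencharacter (hint : ∀ r : R, IsIntegral ℤ r)
    (m : Ideal R) [hm : m.IsMaximal] (hker : RingHom.ker ρ ≤ m) :
    ∃ (v : V) (χ : R →+* integralClosure ℤ ℂ) (m' : Ideal (integralClosure ℤ ℂ)),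
      v ≠ 0 ∧ (∀ r, ρ r v = ((χ r : integralClosure ℤ ℂ) : ℂ) • v) ∧ m'.IsMaximal ∧
        m'.comap χ = m := by
  have : m.IsPrime := hm.isPrime
  obtain ⟨v, φ, hv0, hv, hφ⟩ := exists_eigenvector_ker_le ρ m hker
  have hφint : ∀ r, φ r ∈ integralClosure ℤ ℂ := by
    intro r
    exact (hint r).map (φ.toIntAlgHom)
  let χ : R →+* integralClosure ℤ ℂ := RingHom.codRestrict φ (integralClosure ℤ ℂ) hφint
  have hχ : ∀ r, ((χ r : integralClosure ℤ ℂ) : ℂ) = φ r := fun r => rfl
  have hkerχ : RingHom.ker χ ≤ m := by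
    intro r hr
    apply hφ
    rw [RingHom.mem_ker] at hr ⊢
    rw [← hχ r, hr]
    rfl
  let _ : Algebra R (integralClosure ℤ ℂ) := χ.toAlgebra
  have : Algebra.IsIntegral R (integralClosure ℤ ℂ) := by
    refine ⟨fun s => ?_⟩
    obtain ⟨p, hpm, hp⟩ := (Algebra.IsIntegral.isIntegral (R := ℤ) s : IsIntegral ℤ s)
    refine ⟨p.map (Int.castRingHom R), hpm.map _, ?_⟩
    rw [Polynomial.eval₂_map]
    have : (algebraMap R (integralClosure ℤ ℂ)).comp (Int.castRingHom R) =
        algebraMap ℤ (integralClosure ℤ ℂ) := RingHom.ext_int _ _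
    rw [this]
    exact hp
  obtain ⟨m', hm'max, hm'⟩ := Ideal.exists_ideal_over_maximal_of_isIntegral
    (S := integralClosure ℤ ℂ) m hkerχ
  exact ⟨v, χ, m', hv0, fun r => by rw [hχ r]; exact hv r, hm'max, hm'⟩

end Lift

end Fermat.Agent.S49x
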